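import Mathlib

/-!
# Groups in which every nontrivial motion fixes exactly two points

If a point of such an action is fixed by a motion of order at least six then its orbit has at most
two points: this is Klein's counting for finite rotation groups.
-/

set_option autoImplicit false

open MulAction

namespace Fermat.SW.Serre

/-- The counting, as arithmetic. -/
theorem klein_arith {ι : Type*} [DecidableEq ι] {s : Finset ι} {i₀ : ι} (hi₀ : i₀ ∈ s) {o : ι → ℕ}
    {N : ℕ} (hdvd : ∀ i ∈ s, o i ∣ N) (h6 : 6 * o i₀ ≤ N)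
    (hsum : ∑ i ∈ s, (N - o i) + 2 = 2 * N) : o i₀ ≤ 2 := by
  by_cases hm : o i₀ ≤ 2
  · exact hm
  exfalso
  push Not at hm
  have hN : 0 < N := by omega
  set P := (s.erase i₀).filter fun i => o i < N with hP
  -- keep the other orbits of size `< N`
  have hrest : ∑ i ∈ P, (N - o i) = ∑ i ∈ s.erase i₀, (N - o i) := by
    refine Finset.sum_filter_of_ne fun i _ hne => ?_
    omega
  have htot : ∑ i ∈ P, (N - o i) + (N - o i₀) + 2 = 2 * N := by
    rw [hrest, Finset.sum_erase_add _ _ hi₀, hsum]
  -- each has size `N / 2` or at most `N / 3`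
  have hhalf : ∀ i ∈ P, 2 * o i = N ∨ 3 * o i ≤ N := fun i hi => by
    obtain ⟨hi1, hi2⟩ := Finset.mem_filter.mp hi
    obtain ⟨c, hc⟩ := hdvd i (Finset.mem_of_mem_erase hi1)
    rcases (show c = 0 ∨ c = 1 ∨ c = 2 ∨ 3 ≤ c by omega) with rfl | rfl | rfl | h3
    · omega
    · omega
    · left; omega
    · right; rw [hc, mul_comm (o i)]; exact Nat.mul_le_mul_right _ h3
  -- count them
  rcases (show P.card = 0 ∨ P.card = 1 ∨ P.card = 2 ∨ 3 ≤ P.card by omega) with h | h | h | h
  · rw [Finset.card_eq_zero.mp h, Finset.sum_empty] at htot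
    omega
  · obtain ⟨a, ha⟩ := Finset.card_eq_one.mp h
    rw [ha, Finset.sum_singleton] at htot
    omega
  · obtain ⟨a, b, hab, hP'⟩ := Finset.card_eq_two.mp h
    rw [hP', Finset.sum_pair hab] at htot
    have ha := hhalf a (hP' ▸ Finset.mem_insert_self a _)
    have hb := hhalf b (hP' ▸ Finset.mem_insert_of_mem (Finset.mem_singleton_self b))
    omega
  · obtain ⟨T, hT, hT3⟩ := Finset.exists_subset_card_eq h
    have h1 : ∑ i ∈ T, (N - o i) ≤ ∑ i ∈ P, (N - o i) := Finset.sum_le_sum_of_subset hT
    have h2 : T.card • (N / 2) ≤ ∑ i ∈ T, (N - o i) :=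
      Finset.card_nsmul_le_sum T _ _ fun i hi => by
        have := hhalf i (hT hi)
        omega
    rw [hT3, smul_eq_mul] at h2
    omega

/-- **A long stabiliser has a short orbit.** -/
theorem card_orbit_le_two {G X : Type*} [Group G] [Finite X] [MulAction G X]
    (h2 : ∀ g : G, (∀ x : X, g • x = x) ∨ Nat.card (fixedBy X g) = 2) {g : G} {x : X}
    (hgx : g • x = x) (hord : ∀ k : ℕ, 0 < k → k < 6 → ∃ y : X, g ^ k • y ≠ y) :
    Nat.card (orbit G x) ≤ 2 := by
  classical
  have := Fintype.ofFinite X
  set H : Subgroup (Equiv.Perm X) := (toPermHom G X).range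
  let gH : H := ⟨toPermHom G X g, g, rfl⟩
  -- the orbit is the same for the group of motions
  have horb : orbit G x = orbit H x := Set.ext fun y => by
    constructor
    · rintro ⟨a, rfl⟩
      exact ⟨⟨toPermHom G X a, a, rfl⟩, rfl⟩
    · rintro ⟨⟨_, a, rfl⟩, rfl⟩
      exact ⟨a, rfl⟩
  rw [horb]
  have : Fintype H := Fintype.ofFinite H
  -- a motion other than the identity fixes two points
  have hfix : ∀ h : H, h ≠ 1 → Fintype.card (fixedBy X h) = 2 := by
    rintro ⟨_, a, rfl⟩ hne
    rw [← Nat.card_eq_fintype_card]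
    rcases h2 a with e | e
    · exact absurd (Subtype.ext (Equiv.ext e)) hne
    · exact e
  -- Burnside
  let o : orbitRel.Quotient H X → ℕ := fun ω => Nat.card ω.orbit
  set N := Fintype.card H with hN
  have hburn : ∑ ω, o ω + 2 * (N - 1) = Fintype.card (orbitRel.Quotient H X) * N := by
    rw [hN, ← sum_card_fixedBy_eq_card_orbits_mul_card_group H X,
      ← Finset.add_sum_erase _ _ (Finset.mem_univ (1 : H)),
      Finset.sum_congr rfl (fun h hh => hfix h (Finset.ne_of_mem_erase hh)), Finset.sum_const,
      Finset.card_erase_of_mem (Finset.mem_univ _), Finset.card_univ, smul_eq_mul, mul_comm 2]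
    congr 1
    rw [← Nat.card_eq_fintype_card, show Nat.card (fixedBy X (1 : H)) = Nat.card X by
      simp [fixedBy_one_eq_univ], Nat.card_congr (selfEquivSigmaOrbits' H X), Nat.card_sigma]
  have hdvd : ∀ ω, o ω ∣ N := by
    intro ω
    induction ω using Quotient.inductionOn' with
    | h y =>
      have := Fintype.ofFinite (orbit H y)
      refine ⟨Fintype.card (stabilizer H y), ?_⟩
      change N = Nat.card (orbitRel.Quotient.orbit (Quotient.mk'' y)) * _
      rw [orbitRel.Quotient.orbit_mk, Nat.card_eq_fintype_card,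
        card_orbit_mul_card_stabilizer_eq_card_group]
  -- the stabiliser has at least six elements
  have h6 : 6 ≤ Fintype.card (stabilizer H x) := by
    let gS : stabilizer H x := ⟨gH, hgx⟩
    refine le_trans ?_ (orderOf_le_card_univ (x := gS))
    by_contra hlt
    push Not at hlt
    obtain ⟨y, hy⟩ := hord (orderOf gS) (orderOf_pos gS) hlt
    refine hy ?_
    have e := congrArg (fun s : stabilizer H x => ((s : H) : Equiv.Perm X)) (pow_orderOf_eq_one gS)
    simp only [SubgroupClass.coe_pow, OneMemClass.coe_one, gS, gH, ← map_pow] at e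
    exact Equiv.congr_fun e y
  have := Fintype.ofFinite (orbit H x)
  have hsum : ∑ ω, (N - o ω) + 2 = 2 * N := by
    have h1 : ∑ ω, (N - o ω) + ∑ ω, o ω = Fintype.card (orbitRel.Quotient H X) * N := by
      rw [← Finset.sum_add_distrib, Finset.sum_congr rfl (fun ω _ =>
        Nat.sub_add_cancel (Nat.le_of_dvd Fintype.card_pos (hdvd ω))), Finset.sum_const,
        Finset.card_univ, smul_eq_mul]
    have := Fintype.card_pos (α := H)
    omega
  have h := klein_arith (s := Finset.univ) (i₀ := (Quotient.mk'' x : orbitRel.Quotient H X))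
    (Finset.mem_univ _) (o := o) (N := N) (fun ω _ => hdvd ω) ?_ hsum
  · change Nat.card (orbitRel.Quotient.orbit (Quotient.mk'' x)) ≤ 2 at h
    rwa [orbitRel.Quotient.orbit_mk] at h
  · change 6 * Nat.card (orbitRel.Quotient.orbit (Quotient.mk'' x)) ≤ N
    rw [orbitRel.Quotient.orbit_mk, hN, ← card_orbit_mul_card_stabilizer_eq_card_group H x,
      Nat.card_eq_fintype_card, mul_comm 6]
    exact Nat.mul_le_mul_left _ h6

end Fermat.SW.Serre
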