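import Fermat.Agent.DS.Grp.TwoByTwo
import Fermat.Agent.SW.Serre.Orbits
import Mathlib

/-!
# The stable lines of an image of order prime to `p`

Over an algebraic closure an element which is not a scalar, of order prime to `p`, has exactly two
eigenlines.  So if one element has large projective order then the others permute its pair of lines.
-/

set_option autoImplicit false

noncomputable section

open Matrix
open scoped LinearAlgebra.Projectivization

namespace Fermat.SW.Serre

variable (p : ℕ) [hp : Fact p.Prime]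

/-- An algebraic closure of `𝔽_p`. -/
abbrev Kbar : Type := AlgebraicClosure (ZMod p)

/-- The space on which the lines are taken. -/
abbrev Vbar : Type := Fin 2 → Kbar p

/-- Extension of scalars. -/
def extM : Matrix (Fin 2) (Fin 2) (ZMod p) →+* Matrix (Fin 2) (Fin 2) (Kbar p) :=
  (algebraMap (ZMod p) (Kbar p)).mapMatrix

variable {p}

/-- A matrix which is not a multiple of the identity. -/
def NonScalar (g : Matrix (Fin 2) (Fin 2) (ZMod p)) : Prop :=
  ∀ c : ZMod p, g ≠ c • 1

/-- Extension of scalars of matrices is injective. -/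
theorem extM_injective : Function.Injective (extM p) :=
  Matrix.map_injective (algebraMap (ZMod p) (Kbar p)).injective

/-- A matrix which is not scalar stays so over the algebraic closure. -/
theorem NonScalar.extM_ne {g : Matrix (Fin 2) (Fin 2) (ZMod p)} (hg : NonScalar g) (μ : Kbar p) :
    extM p g ≠ μ • 1 := by
  intro e
  have hij : ∀ i j, algebraMap (ZMod p) (Kbar p) (g i j) = if i = j then μ else 0 := fun i j => by
    rw [show algebraMap (ZMod p) (Kbar p) (g i j) = extM p g i j from rfl, e]
    by_cases h : i = j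
    · subst h; simp
    · simp [h, Matrix.one_apply_ne h]
  refine hg (g 0 0) (Matrix.ext fun i j => (algebraMap (ZMod p) (Kbar p)).injective ?_)
  rw [hij i j, Matrix.smul_apply, smul_eq_mul, map_mul, hij 0 0, if_pos rfl, Matrix.one_apply]
  split_ifs <;> simp

/-- The line killed by a nonzero singular matrix is unique. -/
theorem exists_smul_eq_of_kernel {k : Type*} [Field k] {A : Matrix (Fin 2) (Fin 2) k} (hA : A ≠ 0)
    {v w : Fin 2 → k} (hv : v ≠ 0) (h1 : A *ᵥ v = 0) (h2 : A *ᵥ w = 0) : ∃ c : k, c • v = w := by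
  obtain ⟨i, hi⟩ : ∃ i, A i 0 ≠ 0 ∨ A i 1 ≠ 0 := by
    by_contra hall
    push Not at hall
    refine hA (Matrix.ext fun i j => ?_)
    fin_cases j
    · exact (hall i).1
    · exact (hall i).2
  have ev := congrFun h1 i
  have ew := congrFun h2 i
  simp [Matrix.mulVec, dotProduct, Fin.sum_univ_two] at ev ew
  rcases hi with hi | hi
  · have hv1 : v 1 ≠ 0 := fun e => hv (funext fun j => by
      fin_cases j
      · rw [e, mul_zero, add_zero] at ev
        exact (mul_eq_zero.mp ev).resolve_left hi
      · exact e)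
    refine ⟨w 1 / v 1, funext fun j => ?_⟩
    fin_cases j <;> simp [field]
    exact mul_left_cancel₀ hi (by linear_combination w 1 * ev - v 1 * ew)
  · have hv0 : v 0 ≠ 0 := fun e => hv (funext fun j => by
      fin_cases j
      · exact e
      · rw [e, mul_zero, zero_add] at ev
        exact (mul_eq_zero.mp ev).resolve_left hi)
    refine ⟨w 0 / v 0, funext fun j => ?_⟩
    fin_cases j <;> simp [field]
    exact mul_left_cancel₀ hi (by linear_combination w 0 * ev - v 0 * ew)

/-- The action on lines. -/
def lineMap (g : GL (Fin 2) (ZMod p)) : LinearMap.GeneralLinearGroup (Kbar p) (Vbar p) :=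
  Matrix.GeneralLinearGroup.toLin (Matrix.GeneralLinearGroup.map (algebraMap (ZMod p) (Kbar p)) g)

/-- The action on lines is multiplicative. -/
theorem lineMap_mul (g h : GL (Fin 2) (ZMod p)) : lineMap (g * h) = lineMap g * lineMap h := by
  simp [lineMap]

/-- A line is fixed when its vectors are eigenvectors. -/
theorem smul_line_iff (g : GL (Fin 2) (ZMod p)) {v : Vbar p} (hv : v ≠ 0) :
    lineMap g • Projectivization.mk (Kbar p) v hv = Projectivization.mk (Kbar p) v hv ↔
      ∃ μ : Kbar p, extM p (g : Matrix (Fin 2) (Fin 2) (ZMod p)) *ᵥ v = μ • v := by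
  rw [Projectivization.generalLinearGroup_smul_def, Projectivization.map_mk,
    Projectivization.mk_eq_mk_iff']
  exact exists_congr fun μ => eq_comm

/-- **Two eigenlines.** A nonscalar element of order prime to `p` fixes exactly two lines over the
algebraic closure. -/
theorem card_fixed_lines {g : GL (Fin 2) (ZMod p)}
    (hg : NonScalar (g : Matrix (Fin 2) (Fin 2) (ZMod p)))
    {n : ℕ} (hn : g ^ n = 1) (hpn : ¬ p ∣ n) :
    Nat.card {x : ℙ (Kbar p) (Vbar p) // lineMap g • x = x} = 2 := by
  classical
  set A := extM p (g : Matrix (Fin 2) (Fin 2) (ZMod p))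
  obtain ⟨μ, hμ⟩ := IsAlgClosed.exists_root
    (Polynomial.X ^ 2 - Polynomial.C A.trace * Polynomial.X + Polynomial.C A.det)
    (by
      have : (Polynomial.X ^ 2 - Polynomial.C A.trace * Polynomial.X +
          Polynomial.C A.det).degree = 2 := by
        compute_degree!
      rw [this]; decide)
  simp [Polynomial.IsRoot] at hμ
  -- the other eigenvalue is different
  have hν : A.trace - μ ≠ μ := by
    intro e
    have hN : (A - μ • 1) * (A - μ • 1) = 0 := by
      rw [sub_mul, mul_sub, mul_sub, DS.mul_self_eq, show A.trace = μ + μ by linear_combination e,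
        show A.det = μ * μ by linear_combination hμ + μ * e]
      simp only [smul_mul_assoc, one_mul, mul_smul_comm, mul_one]
      module
    have hpow : ∀ m : ℕ, A ^ m = μ ^ m • (1 : Matrix (Fin 2) (Fin 2) (Kbar p)) +
        ((m : Kbar p) * μ ^ (m - 1)) • (A - μ • 1) := by
      intro m
      induction m with
      | zero => simp
      | succ m ih =>
        rw [pow_succ, ih]
        conv_lhs => arg 2; rw [show A = μ • (1 : Matrix (Fin 2) (Fin 2) (Kbar p)) + (A - μ • 1) by
          rw [add_sub_cancel]]
        rw [add_mul, mul_add, mul_add, smul_mul_assoc, smul_mul_assoc, smul_mul_assoc,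
          smul_mul_assoc, hN, smul_zero, add_zero, one_mul, one_mul, mul_smul_comm, mul_one,
          smul_smul, smul_smul, add_assoc, ← add_smul, Nat.add_sub_cancel, pow_succ]
        congr 2
        rcases m with _ | m
        · simp
        · push_cast
          ring
    have h1 : A ^ n = 1 := by
      rw [← map_pow, ← Units.val_pow_eq_pow_val, hn, Units.val_one, map_one]
    rw [hpow n] at h1
    have hn0 : (n : Kbar p) ≠ 0 := fun e0 => hpn ((CharP.cast_eq_zero_iff (Kbar p) p n).mp e0)
    have hμ0 : μ ≠ 0 := fun e0 => by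
      have hd : A.det = 0 := by linear_combination hμ + μ * e + μ * e0
      exact ((Matrix.isUnit_iff_isUnit_det A).mp (g.isUnit.map (extM p))).ne_zero hd
    set c : Kbar p := (n : Kbar p) * μ ^ (n - 1)
    have hA : A = ((1 - μ ^ n) / c + μ) • (1 : Matrix (Fin 2) (Fin 2) (Kbar p)) := by
      have h2 : c • (A - μ • 1) = (1 - μ ^ n) • (1 : Matrix (Fin 2) (Fin 2) (Kbar p)) := by
        rw [sub_smul, one_smul]
        exact eq_sub_of_add_eq' h1
      have hc : c ≠ 0 := mul_ne_zero hn0 (pow_ne_zero _ hμ0)
      rw [add_smul, div_eq_inv_mul, mul_smul, ← h2, smul_smul, inv_mul_cancel₀ hc, one_smul,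
        sub_add_cancel]
    exact hg.extM_ne _ hA
  have hroot : ∀ ν : Kbar p, (A - ν • 1).det = 0 ↔ ν = μ ∨ ν = A.trace - μ := by
    intro ν
    have : (A - ν • 1).det = (ν - μ) * (ν - (A.trace - μ)) := by
      simp [Matrix.det_fin_two, Matrix.trace_fin_two] at hμ ⊢
      linear_combination hμ
    rw [this, mul_eq_zero, sub_eq_zero, sub_eq_zero]
  have hvec : ∀ ν : Kbar p, (ν = μ ∨ ν = A.trace - μ) → ∃ v : Vbar p, v ≠ 0 ∧ A *ᵥ v = ν • v := by
    intro ν h
    obtain ⟨v, hv, hv'⟩ := Matrix.exists_mulVec_eq_zero_iff.mpr ((hroot ν).mpr h)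
    exact ⟨v, hv, by
        rwa [Matrix.sub_mulVec, Matrix.smul_mulVec, Matrix.one_mulVec, sub_eq_zero] at hv'⟩
  obtain ⟨v, hv, hAv⟩ := hvec μ (Or.inl rfl)
  obtain ⟨w, hw, hAw⟩ := hvec _ (Or.inr rfl)
  have hne : Projectivization.mk (Kbar p) v hv ≠ Projectivization.mk (Kbar p) w hw := by
    rw [Ne, Projectivization.mk_eq_mk_iff']
    rintro ⟨c, rfl⟩
    rw [Matrix.mulVec_smul, hAw, smul_comm μ, ← sub_eq_zero, ← smul_sub, ← sub_smul] at hAv
    have hc : c ≠ 0 := fun e => hv (by rw [e, zero_smul])
    exact hν (sub_eq_zero.mp ((smul_eq_zero.mp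
      ((smul_eq_zero.mp hAv).resolve_left hc)).resolve_right hw))
  rw [Nat.card_eq_two_iff]
  refine ⟨⟨_, (smul_line_iff g hv).mpr ⟨μ, hAv⟩⟩, ⟨_, (smul_line_iff g hw).mpr ⟨_, hAw⟩⟩,
    fun e => hne (congrArg Subtype.val e), ?_⟩
  refine Set.eq_univ_of_forall fun ⟨x, hx⟩ => ?_
  induction x using Projectivization.ind with
  | h u hu =>
    obtain ⟨ν, hν'⟩ := (smul_line_iff g hu).mp hx
    have hker : (A - ν • 1) *ᵥ u = 0 := by
      rw [Matrix.sub_mulVec, Matrix.smul_mulVec, Matrix.one_mulVec, hν', sub_self]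
    have hA0 : A - ν • 1 ≠ 0 := fun e => hg.extM_ne ν (sub_eq_zero.mp e)
    simp only [Set.mem_insert_iff, Set.mem_singleton_iff, Subtype.mk.injEq,
      Projectivization.mk_eq_mk_iff']
    rcases (hroot ν).mp (Matrix.exists_mulVec_eq_zero_iff.mp ⟨u, hu, hker⟩) with rfl | rfl
    · exact Or.inl (exists_smul_eq_of_kernel hA0 hv
        (by rw [Matrix.sub_mulVec, Matrix.smul_mulVec, Matrix.one_mulVec, hAv, sub_self]) hker)
    · exact Or.inr (exists_smul_eq_of_kernel hA0 hw
        (by rw [Matrix.sub_mulVec, Matrix.smul_mulVec, Matrix.one_mulVec, hAw, sub_self]) hker)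

end Fermat.SW.Serre

end
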