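import Fermat.Agent.EC.Dichotomy
import Fermat.Agent.FLAT.Tame
import Fermat.Agent.SW.TorsionRep
import Fermat.Agent.GR.RT.Inertia
import Fermat.Agent.SW.Serre.Lines

/-!
# Inertia at `p ≥ 7` has large projective order on the `p`-torsion of a semistable curve

Either all torsion reduces to `0`, and the formal parameters have order `1 / (p² - 1)`, so a tame
element moves them with that period; or inertia acts trivially modulo the kernel of reduction, and
the determinant shows that an element has projective order `p - 1`.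
-/

set_option autoImplicit false

noncomputable section

open WeierstrassCurve.Affine Fermat.EC Fermat.EC.Val Fermat.EC.Red Fermat.EC.Line Fermat.FLAT
open scoped WeierstrassCurve.Affine

namespace Fermat.SW.Serre

local notation "ℚbar" => AlgebraicClosure ℚ
local notation "Γℚ" => (AlgebraicClosure ℚ ≃ₐ[ℚ] AlgebraicClosure ℚ)

variable {W : WeierstrassCurve ℤ} {p : ℕ} [hp : Fact p.Prime] {A : ValuationSubring ℚbar}

variable (hΔ : W.Δ ≠ 0) (hp5 : 5 ≤ p) (h : IsPlace A p)
  (hss : (p : ℤ) ∣ W.Δ → ¬ (p : ℤ) ∣ W.c₄)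

/-- A scalar in the image acts on the points as a multiple. -/
theorem smul_point_of_scalar {σ : Γℚ} {c : ZMod p}
    (hc : (Tors.tRep (p := p) W hΔ σ : Matrix (Fin 2) (Fin 2) (ZMod p)) = c • 1)
    {P : (overQbar W).Point} (hP : p • P = 0) : σ • P = c.val • P := by
  let x : TorW (modQ W) p := ⟨P, (Submodule.mem_torsionBy_iff _ _).mpr (by
    rw [natCast_zsmul]; exact hP)⟩
  have e : Point.galoisRepModuleEnd (K := ℚbar) ℚ (modQ W).toAffine p σ =
      c • (1 : Module.End (ZMod p) (TorW (modQ W) p)) := by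
    refine (LinearMap.toMatrixAlgEquiv (Tors.tbasis (p := p) W hΔ)).injective ?_
    rw [← Tors.val_tRep, hc, map_smul, map_one]
  have e2 := congrArg Subtype.val (LinearMap.congr_fun e x)
  rw [LinearMap.smul_apply, Module.End.one_apply, ← ZMod.natCast_zmod_val c,
    Nat.cast_smul_eq_nsmul] at e2
  exact e2.trans (by rw [AddSubmonoidClass.coe_nsmul])

include hΔ hp5 h hss

/-- If all torsion reduces to `0`, some inertia element moves every point with period `p² - 1`. -/
theorem exists_period (hall : ∀ P : (overQbar W).Point, p • P = 0 → InE1 A p P) :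
    ∃ ι ∈ A.inertiaSubgroupIn ℚ, ∀ (n : ℕ) (P : (overQbar W).Point), p • P = 0 → P ≠ 0 →
      ι ^ n • P = P → p ^ 2 - 1 ∣ n := by
  classical
  obtain ⟨-, hord⟩ := sum_nonint hΔ h.1 hp5 h hss
  have hord' := hord fun x hx => by
    obtain ⟨P, hP', rfl⟩ := Finset.mem_image.mp hx
    obtain ⟨h1, h2⟩ := (mem_nzTors hΔ h.1).mp hP'
    have := hall P h1
    rcases P with _ | ⟨x, y, hns⟩
    · exact absurd rfl h2
    · exact this
  set e := p ^ 2 - 1 with he_def
  have hp1 : 1 < p ^ 2 := Nat.one_lt_pow two_ne_zero hp.out.one_lt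
  have he : ¬ p ∣ e := fun hd => hp.out.not_dvd_one (by
    have := Nat.dvd_sub (dvd_pow_self p two_ne_zero) hd
    rwa [show p ^ 2 - e = 1 by omega] at this)
  have he0 : e ≠ 0 := fun e0 => he (e0 ▸ dvd_zero p)
  have : NeZero (e : ℚbar) := ⟨Nat.cast_ne_zero.mpr he0⟩
  -- an inertia element multiplying an `e`-th root of `p` by a primitive `ζ`, `e = p² - 1`
  obtain ⟨π, hπ⟩ := exists_pi p e he0
  obtain ⟨ζ, hζ⟩ := HasEnoughRootsOfUnity.exists_primitiveRoot ℚbar e
  obtain ⟨ι, hι, hιπ⟩ := exists_move h (e := e) he hπ hζ.pow_eq_one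
  refine ⟨ι, hι, fun n P hP hP0 hn => ?_⟩
  have hi := isInert_of_mem_inertia hι
  have hπn : ∀ n : ℕ, (ι ^ n) π = ζ ^ n * π := move_pow h he hζ.pow_eq_one hι hιπ
  rcases P with _ | ⟨x, y, hns⟩
  · exact absurd rfl hP0
  obtain ⟨w, hw, hxw, hyw⟩ := exists_of_not_ge h (integralAt_overQbar W h) hns.1 (hall _ hP)
  -- every torsion parameter `-x / y` has order `1 / e`
  have hxo : (e : ℚ) * ord A p x = -2 := by
    have := hord' (xco W (Point.some x y hns))
      (Finset.mem_image_of_mem _ ((mem_nzTors hΔ h.1).mpr ⟨hP, hP0⟩))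
    exact this
  have hwe : w = 1 / (e : ℚ) := by
    rw [hxw.2] at hxo
    rw [eq_div_iff (Nat.cast_ne_zero.mpr he0)]
    linarith
  have ht := ge_tpar_of h hxw hyw
  rw [hwe] at ht
  have hpi := is_pi h (e := e) he0 hπ
  set u := -x / y / π with hu
  have hu0 : Is A p u 0 := by simpa using ht.div h hpi
  have hfix : (ι ^ n) (-x / y) = -x / y := by
    obtain ⟨hns', e'⟩ := smul_some W (ι ^ n) hns
    rw [e', Point.some.injEq] at hn
    rw [map_div₀, map_neg]
    exact congrArg₂ (fun a b => -a / b) hn.1 hn.2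
  -- if it is fixed, `ζⁿ` is congruent to `1`, hence equal to it
  have hd : Gt A p ((ι ^ n) u - u) 0 :=
    (isInert_of_mem_inertia (pow_mem hι n)).gt_sub h hu0.ge
  have hπ0 := hpi.1
  have hz0 : ζ ^ n ≠ 0 := pow_ne_zero _ (hζ.ne_zero he0)
  have hιu : (ι ^ n) u = u / ζ ^ n := by
    rw [hu, map_div₀, hfix, hπn]
    field_simp
  have hzu : Is A p (ζ ^ n) 0 := by
    refine ⟨hz0, ?_⟩
    have := ord_pow h (ζ ^ n) e
    rw [← pow_mul, mul_comm n e, pow_mul, hζ.pow_eq_one, one_pow, ord_one h, eq_comm,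
      mul_eq_zero] at this
    exact this.resolve_left (Nat.cast_ne_zero.mpr he0)
  have hone : Gt A p (ζ ^ n - 1) 0 := by
    have := ((hd.neg h).mul_ge h hzu.ge).div h hu0
    rw [hιu] at this
    have e' : -(u / ζ ^ n - u) * ζ ^ n / u = ζ ^ n - 1 := by
      field_simp [hu0.1]; ring
    rw [e'] at this
    simpa using this
  exact (hζ.pow_eq_one_iff_dvd n).mp (FLAT.root_eq_one h he
    (by rw [← pow_mul, mul_comm n e, pow_mul, hζ.pow_eq_one, one_pow]) hone)

omit hp5 in
/-- **An element of inertia of large projective order.** -/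
theorem exists_large_inertia (hp7 : 7 ≤ p) :
    ∃ ι ∈ A.inertiaSubgroupIn ℚ, ∀ k : ℕ, 0 < k → k < 6 →
      NonScalar ((Tors.tRep (p := p) W hΔ ι ^ k : GL (Fin 2) (ZMod p)) :
        Matrix (Fin 2) (Fin 2) (ZMod p)) := by
  classical
  have hp5 : 5 ≤ p := by omega
  -- if all torsion reduces to zero, inertia has a period divisible by `p² - 1`
  by_cases hall : ∀ P : (overQbar W).Point, p • P = 0 → InE1 A p P
  · obtain ⟨ι, hι, hper⟩ := exists_period hΔ hp5 h hss hall
    refine ⟨ι, hι, fun k hk hk6 c hc => ?_⟩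
    obtain ⟨P, hP, hP0⟩ : ∃ P : (overQbar W).Point, p • P = 0 ∧ P ≠ 0 := by
      obtain ⟨P, hP⟩ : (nzTors hΔ h.1).Nonempty := by
        rw [← Finset.card_pos, card_nzTors]
        have := Nat.one_lt_pow two_ne_zero hp.out.one_lt
        omega
      exact ⟨P, (mem_nzTors hΔ h.1).mp hP⟩
    have hc0 : c ≠ 0 := fun e => by
      rw [e, zero_smul] at hc
      exact (Units.ne_zero _) hc
    have hpow : (Tors.tRep (p := p) W hΔ (ι ^ (k * (p - 1))) : Matrix (Fin 2) (Fin 2) (ZMod p)) =
        (1 : ZMod p) • 1 := by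
      rw [map_pow, pow_mul, Units.val_pow_eq_pow_val, hc, smul_pow, one_pow,
        ZMod.pow_card_sub_one_eq_one hc0]
    have hfix := smul_point_of_scalar hΔ hpow hP
    rw [ZMod.val_one, one_nsmul] at hfix
    have hd := hper _ P hP hP0 hfix
    have hsq : p ^ 2 - 1 = (p + 1) * (p - 1) := by
      rw [← Nat.sq_sub_sq, one_pow]
    rw [hsq] at hd
    have := Nat.le_of_dvd hk (Nat.dvd_of_mul_dvd_mul_right (by omega) hd)
    omega
  -- else a scalar fixes some nonzero reduction, so is `1`, against the determinant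
  · push Not at hall
    obtain ⟨Q, hQ, hQ1⟩ := hall
    obtain ⟨d, hd⟩ := IsCyclic.exists_generator (α := (ZMod p)ˣ)
    obtain ⟨ι, hι, hιd⟩ := Fermat.CFT.exists_mem_inertia_cycChar h.2 d
    refine ⟨ι, hι, fun k hk hk6 c hc => ?_⟩
    rw [← map_pow] at hc
    have hW := integralAt_overQbar W h
    have hmove := Dichotomy.smul_sub_mem_kernel hΔ hp5 h hss
      (isInert_of_mem_inertia (pow_mem hι k)) hQ
    rw [smul_point_of_scalar hΔ hc hQ] at hmove
    have hc1 : c = 1 := by
      by_contra hne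
      refine hQ1 ?_
      have hQ' : ((c - 1)⁻¹ : ZMod p).val • (c.val • Q - Q) = Q := by
        have key2 : (c - 1)⁻¹ • ((c - 1) • (⟨Q, hQ⟩ : tors W p)) = ⟨Q, hQ⟩ := by
          rw [inv_smul_smul₀ (sub_ne_zero.mpr hne)]
        rw [sub_smul, one_smul] at key2
        have e := congrArg Subtype.val key2
        rw [Dichotomy.coe_smulT, AddSubgroup.coe_sub, Dichotomy.coe_smulT] at e
        exact e
      rw [← hQ']
      exact Dichotomy.inE1_nsmul h hW hmove _
    rw [hc1, one_smul] at hc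
    have hdet := Tors.det_tRep (p := p) hΔ (ι ^ k)
    rw [hc, Matrix.det_one, map_pow, hιd] at hdet
    have h1 : d ^ k = 1 := Units.ext hdet.symm
    have hord : orderOf d = p - 1 := by
      rw [orderOf_eq_card_of_forall_mem_zpowers hd, Nat.card_eq_fintype_card, ZMod.card_units]
    have := Nat.le_of_dvd hk (orderOf_dvd_of_pow_eq_one h1)
    omega

end Fermat.SW.Serre

end
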