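import Fermat.Agent.SW.Serre.Image
import Fermat.Agent.SW.Serre.Local

/-!
# Serre: the torsion of a semistable curve is surjective when irreducible

For `p ≥ 7`, if no element of the image has order `p` then the representation is unramified away
from `p`, so it is normally generated by one element of inertia of large projective order; it would
fix a line.

For `p = 3, 5` it is `surjective_tRep_three` and `surjective_tRep_five`; so every odd `p` is
covered (`surjective_tRep_odd`), which with `Top/Rows/LowerCurve` gives S38.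
-/

set_option autoImplicit false

noncomputable section

open Fermat.EC.Val Fermat.CFT Matrix

namespace Fermat.SW.Serre

local notation "ℚbar" => AlgebraicClosure ℚ
local notation "Γℚ" => (AlgebraicClosure ℚ ≃ₐ[ℚ] AlgebraicClosure ℚ)

variable {W : WeierstrassCurve ℤ} {p : ℕ} [hp : Fact p.Prime]

local notation "M2" => Matrix (Fin 2) (Fin 2) (ZMod p)

/-- An irreducible semistable representation is surjective for `p ≥ 7`. -/
theorem surjective_tRep_ge_seven (hW : W.Δ ≠ 0) (hss : W.IsSemistableModel) (hp7 : 7 ≤ p)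
    (hirr : W.ModRepIsIrreducible p) : Function.Surjective (Tors.tRep (p := p) W hW) := by
  classical
  set ρ := Tors.tRep (p := p) W hW
  have hIrr := Tors.irr_tRep hW hirr
  have hdet := Tors.det_tRep (p := p) hW
  by_cases hτ : ∃ σ, ρ σ ≠ 1 ∧ ρ σ ^ p = 1
  · obtain ⟨σ, h1, h2⟩ := hτ
    exact Surj.surjective_of_order hIrr hdet h1 h2
  exfalso
  push Not at hτ
  have hno : ∀ σ, ρ σ ^ p = 1 → ρ σ = 1 := fun σ h => by
    by_contra hne
    exact hτ σ hne h
  have hp2 : p ≠ 2 := by omega
  have hopen : IsOpen (ρ.ker : Set Γℚ) := Tors.isOpen_ker_tRep hW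
  obtain ⟨A, hA⟩ := exists_place hp.out
  have hP : IsPlace A p := ⟨hp.out, hA⟩
  set L : IntermediateField ℚ ℚbar := IntermediateField.fixedField ρ.ker
  have hfix : L.fixingSubgroup = ρ.ker := InfiniteGalois.fixingSubgroup_fixedField
    (⟨ρ.ker, Subgroup.isClosed_of_isOpen _ hopen⟩ : ClosedSubgroup Γℚ)
  have : FiniteDimensional ℚ L := (InfiniteGalois.isOpen_iff_finite L).mp (by
    change IsOpen (L.fixingSubgroup : Set Γℚ); rw [hfix]; exact hopen)
  have : IsGalois ℚ L := (InfiniteGalois.normal_iff_isGalois L).mp (by rw [hfix]; infer_instance)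
  -- wild inertia dies
  have hwild : ∀ σ ∈ Fermat.FLAT.wildOn A L, ρ σ = 1 := by
    intro σ hσ
    obtain ⟨a, ha⟩ := Fermat.FLAT.exists_pow_eq_one_of_wild hP hfix.le hσ
    have descend : ∀ (b : ℕ) (τ : Γℚ), ρ τ ^ p ^ b = 1 → ρ τ = 1 := by
      intro b
      induction b with
      | zero => intro τ h; simpa using h
      | succ b ih =>
        intro τ h
        exact hno τ (by
          rw [← map_pow]
          refine ih _ ?_
          rw [map_pow, ← pow_mul, ← pow_succ']
          exact h)
    exact descend a σ ha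
  obtain ⟨τ, hτI, hgen⟩ := Fermat.GR.RT.exists_inertia_generator (ρ := ρ) hP hfix.le hwild
  obtain ⟨ι, hι, hlarge⟩ := exists_large_inertia hW hP (hss p hp.out) hp7
  obtain ⟨j, hj⟩ := hgen ι hι
  have hord : ∀ k : ℕ, 0 < k → k < 6 → NonScalar ((ρ τ ^ k : GL (Fin 2) (ZMod p)) : M2) := by
    intro k hk hk6 c hc
    refine hlarge k hk hk6 (c ^ j) ?_
    rw [hj, ← pow_mul, mul_comm, pow_mul, Units.val_pow_eq_pow_val, hc, smul_pow, one_pow]
  have hnormal : ∀ {P : Type} [Group P] (χ : Γℚ →* P), ρ.ker ≤ χ.ker → χ τ = 1 → ∀ σ, χ σ = 1 := by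
    intro P _ χ hle hχτ σ
    refine Fermat.EC.Galois.eq_one_of_forall_inertia χ (Subgroup.isOpen_mono hle hopen)
      (fun ℓ hℓ => ?_) σ
    rcases eq_or_ne ℓ p with rfl | hne
    · refine ⟨A, hA, fun σ hσ => ?_⟩
      obtain ⟨i, hi⟩ := hgen σ hσ
      have hk : σ * (τ ^ i)⁻¹ ∈ χ.ker := hle (by
        rw [MonoidHom.mem_ker, map_mul, map_inv, map_pow, hi, mul_inv_cancel])
      rw [MonoidHom.mem_ker, map_mul, map_inv, map_pow, hχτ, one_pow, inv_one, mul_one] at hk
      exact hk
    · obtain ⟨B, hB⟩ := exists_place hℓ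
      refine ⟨B, hB, fun σ hσ => hle (MonoidHom.mem_ker.mpr (hno σ (Units.ext ?_)))⟩
      rw [Units.val_pow_eq_pow_val, Units.val_one]
      exact Surj.pow_eq_one_of_sq (Tors.unipotent_tRep hW hss hp2 hℓ hne hB hσ)
  obtain ⟨w, hw, hstab⟩ := exists_common_eigenvector (ρ := ρ) hno hord hnormal
    (γ := complexConjugation)
    (by rw [← Units.val_mul, ← map_mul, complexConjugation_mul_self, map_one, Units.val_one])
    (by rw [hdet]; exact Fermat.CFT.cycloChar_complexConjugation) hp2
  obtain ⟨σ, hσ⟩ := hIrr w hw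
  obtain ⟨c, hc⟩ := hstab σ
  exact hσ c hc

/-- **Irreducible torsion of a semistable curve is surjective**, for every odd `p`. -/
theorem surjective_tRep_odd (hW : W.Δ ≠ 0) (hss : W.IsSemistableModel) (hp2 : p ≠ 2)
    (hirr : W.ModRepIsIrreducible p) : Function.Surjective (Tors.tRep (p := p) W hW) := by
  by_cases h3 : p = 3
  · subst h3; exact Tors.surjective_tRep_three hW hss hirr
  by_cases h5 : p = 5
  · subst h5; exact Tors.surjective_tRep_five hW hss hirr
  refine surjective_tRep_ge_seven hW hss ?_ hirr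
  have h2 := hp.out.two_le
  by_contra hlt
  interval_cases p <;> first | omega | exact absurd hp.out (by norm_num)

end Fermat.SW.Serre

end
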