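import Fermat.Agent.SW.Serre.Lines

/-!
# An element of large projective order in an image of order prime to `p`

If the image of a homomorphism to `GL₂(𝔽_p)` has no element of order `p`, is normally generated by
one element of projective order at least six and contains an involution of determinant `-1`, then it
fixes a line of `𝔽_p²`.
-/

set_option autoImplicit false

noncomputable section

open Matrix MulAction
open scoped LinearAlgebra.Projectivization

namespace Fermat.SW.Serre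

variable {p : ℕ} [hp : Fact p.Prime]

local notation "M2" => Matrix (Fin 2) (Fin 2) (ZMod p)
local notation "GL2" => GL (Fin 2) (ZMod p)

/-- Orders of elements are prime to `p` when there is no element of order `p`. -/
private theorem not_dvd_orderOf_image {Γ : Type*} [Group Γ] {ρ : Γ →* GL2}
    (hno : ∀ σ, ρ σ ^ p = 1 → ρ σ = 1) (σ : Γ) : ¬ p ∣ orderOf (ρ σ) := by
  rintro ⟨m, hm⟩
  have hm0 : 0 < m := Nat.pos_of_ne_zero fun e => (orderOf_pos (ρ σ)).ne' (by rw [hm, e, mul_zero])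
  have h1 : ρ σ ^ m = 1 := by
    rw [← map_pow]
    refine hno _ ?_
    rw [map_pow, ← pow_mul, mul_comm, ← hm, pow_orderOf_eq_one]
  have := Nat.le_of_dvd hm0 (orderOf_dvd_of_pow_eq_one h1)
  rw [hm] at this
  nlinarith [hp.out.two_le]

/-- Extension of scalars of a scalar matrix. -/
private theorem extM_smul_one (c : ZMod p) :
    extM p (c • (1 : M2)) = algebraMap _ (Kbar p) c • 1 := by
  ext i j
  change algebraMap _ (Kbar p) ((c • (1 : M2)) i j) = _
  by_cases h : i = j
  · subst h; simp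
  · simp [Matrix.one_apply_ne h]

/-- Scalars fix every line. -/
private theorem lineMap_smul_of_scalar {g : GL2} (hg : ¬ NonScalar (g : M2))
    (x : ℙ (Kbar p) (Vbar p)) : lineMap g • x = x := by
  unfold NonScalar at hg
  push Not at hg
  obtain ⟨c, hc⟩ := hg
  induction x using Projectivization.ind with
  | h v hv =>
    refine (smul_line_iff g hv).mpr ⟨algebraMap _ _ c, ?_⟩
    rw [hc, extM_smul_one, Matrix.smul_mulVec, Matrix.one_mulVec]

/-- Only finitely many lines are fixed by non-scalar elements of order prime to `p`. -/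
private theorem finite_fixed_lines {Γ : Type*} [Group Γ] {ρ : Γ →* GL2}
    (hno : ∀ σ, ρ σ ^ p = 1 → ρ σ = 1) :
    {x : ℙ (Kbar p) (Vbar p) | ∃ σ, NonScalar (ρ σ : M2) ∧ lineMap (ρ σ) • x = x}.Finite := by
  refine (Set.finite_iUnion (ι := {g : GL2 // ∃ σ, NonScalar (ρ σ : M2) ∧ ρ σ = g})
    (f := fun g => {x : ℙ (Kbar p) (Vbar p) | lineMap g.1 • x = x}) fun ⟨g, σ, h1, h2⟩ => ?_).subset
    fun x ⟨σ, h1, h2⟩ => Set.mem_iUnion.mpr ⟨⟨ρ σ, σ, h1, rfl⟩, h2⟩
  subst h2
  exact Nat.finite_of_card_ne_zero (α := {x // lineMap (ρ σ) • x = x}) (by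
    rw [card_fixed_lines h1 (pow_orderOf_eq_one (ρ σ)) (not_dvd_orderOf_image hno σ)]; omega)

/-- Conjugates of non-scalar elements are non-scalar. -/
private theorem nonScalar_conj {Γ : Type*} [Group Γ] {ρ : Γ →* GL2} {σ : Γ}
    (h : NonScalar (ρ σ : M2)) (α : Γ) : NonScalar (ρ (α * σ * α⁻¹) : M2) := fun c hc => h c (by
  rw [map_mul, map_mul, map_inv, Units.val_mul, Units.val_mul] at hc
  calc (ρ σ : M2) = (↑(ρ α)⁻¹ : M2) * ((ρ α : M2) * (ρ σ : M2) * (↑(ρ α)⁻¹ : M2)) *
        (ρ α : M2) := by simp [mul_assoc]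
    _ = c • 1 := by rw [hc]; simp)

/-- A motion of at most two points fixing one of them fixes both. -/
private theorem smul_eq_self_of_card_le_two {G O : Type*} [Group G] [MulAction G O] [Finite O]
    (hO : Nat.card O ≤ 2) {τ : G} {z : O} (hz : τ • z = z) (y : O) : τ • y = y := by
  classical
  by_contra hy
  have h3 : ({z, y, τ • y} : Finset O).card = 3 := by
    rw [Finset.card_eq_three]
    refine ⟨z, y, τ • y, fun e => hy (e ▸ hz), fun e => hy ?_, Ne.symm hy, rfl⟩
    have e' : y = z := smul_left_cancel τ (e.symm.trans hz.symm)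
    rw [e', hz]
  have := Fintype.ofFinite O
  have := Finset.card_le_univ ({z, y, τ • y} : Finset O)
  rw [h3, ← Nat.card_eq_fintype_card] at this
  omega

/-- A common eigenline over the algebraic closure. -/
private theorem exists_common_line {Γ : Type*} [Group Γ] {ρ : Γ →* GL2}
    (hno : ∀ σ, ρ σ ^ p = 1 → ρ σ = 1) {τ : Γ}
    (hord : ∀ k : ℕ, 0 < k → k < 6 → NonScalar ((ρ τ ^ k : GL2) : M2))
    (hgen : ∀ {P : Type} [Group P] (χ : Γ →* P), ρ.ker ≤ χ.ker → χ τ = 1 → ∀ σ, χ σ = 1) :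
    ∃ v : Vbar p, v ≠ 0 ∧ ∀ σ, ∃ μ : Kbar p, extM p (ρ σ : M2) *ᵥ v = μ • v := by
  let : MulAction Γ (ℙ (Kbar p) (Vbar p)) :=
    MulAction.compHom _ ((MonoidHom.mk' (lineMap (p := p)) lineMap_mul).comp ρ)
  let X : SubMulAction Γ (ℙ (Kbar p) (Vbar p)) :=
    { carrier := {x | ∃ σ, NonScalar (ρ σ : M2) ∧ σ • x = x}
      smul_mem' := by
        rintro α x ⟨σ, h1, h2⟩
        exact ⟨α * σ * α⁻¹, nonScalar_conj h1 α,
          by rw [mul_smul, inv_smul_smul, mul_smul, h2]⟩ }
  have : Finite X := (finite_fixed_lines hno).to_subtype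
  have hcard : ∀ σ, NonScalar (ρ σ : M2) →
      Nat.card {x : ℙ (Kbar p) (Vbar p) // lineMap (ρ σ) • x = x} = 2 := fun σ h =>
    card_fixed_lines h (pow_orderOf_eq_one (ρ σ)) (not_dvd_orderOf_image hno σ)
  have hτ1 : NonScalar (ρ τ : M2) := by simpa using hord 1 one_pos (by norm_num)
  obtain ⟨⟨x, hx⟩⟩ : Nonempty {x : ℙ (Kbar p) (Vbar p) // lineMap (ρ τ) • x = x} :=
    (Nat.card_pos_iff.mp (by rw [hcard τ hτ1]; omega)).1
  let x₀ : X := ⟨x, τ, hτ1, hx⟩
  have h2 : ∀ σ : Γ, (∀ y : X, σ • y = y) ∨ Nat.card (fixedBy X σ) = 2 := fun σ => by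
    by_cases hσ : NonScalar (ρ σ : M2)
    · right
      exact (Nat.card_congr
        { toFun := fun y => ⟨y.1.1, congrArg Subtype.val y.2⟩
          invFun := fun y => ⟨⟨y.1, σ, hσ, y.2⟩, Subtype.ext y.2⟩
          left_inv := fun y => rfl
          right_inv := fun y => rfl }).trans (hcard σ hσ)
    · exact Or.inl fun y => Subtype.ext (lineMap_smul_of_scalar hσ _)
  have horbit : Nat.card (orbit Γ x₀) ≤ 2 := by
    by_cases hX : Nat.card X ≤ 2
    · exact (Nat.card_le_card_of_injective _ Subtype.val_injective).trans hX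
    refine card_orbit_le_two h2 (g := τ) (Subtype.ext hx) fun k hk hk6 => ?_
    by_contra hall
    push Not at hall
    have hk' : NonScalar (ρ (τ ^ k) : M2) := by rw [map_pow]; exact hord k hk hk6
    exact hX (le_of_eq ((Nat.card_congr
      { toFun := fun y => ⟨y.1, congrArg Subtype.val (hall y)⟩
        invFun := fun y => ⟨y.1, τ ^ k, hk', y.2⟩
        left_inv := fun y => rfl
        right_inv := fun y => rfl }).trans (hcard _ hk')))
  -- everything fixes the line
  let χ : Γ →* Equiv.Perm (orbit Γ x₀) := MulAction.toPermHom Γ (orbit Γ x₀)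
  have hker : ρ.ker ≤ χ.ker := fun σ hσ => MonoidHom.mem_ker.mpr (Equiv.ext fun y => Subtype.ext
    (Subtype.ext (by
      change lineMap (ρ σ) • ((y.1 : X) : ℙ (Kbar p) (Vbar p)) = _
      rw [MonoidHom.mem_ker.mp hσ]
      exact lineMap_smul_of_scalar (fun h => h 1 (by rw [Units.val_one, one_smul])) _)))
  have hχτ : χ τ = 1 := Equiv.ext fun y => show τ • y = y from
    smul_eq_self_of_card_le_two horbit (z := ⟨x₀, mem_orbit_self x₀⟩)
      (Subtype.ext (Subtype.ext hx)) y
  have hfix : ∀ σ : Γ, σ • x = x := fun σ => congrArg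
    (fun y : orbit Γ x₀ => ((y : X) : ℙ (Kbar p) (Vbar p)))
    (congrArg (fun e : Equiv.Perm (orbit Γ x₀) => e ⟨x₀, mem_orbit_self x₀⟩) (hgen χ hker hχτ σ))
  clear hχτ hker horbit h2
  induction x using Projectivization.ind with
  | h v hv => exact ⟨v, hv, fun σ => (smul_line_iff (ρ σ) hv).mp (hfix σ)⟩

/-- An eigenvalue of an involution is `±1`. -/
private theorem exists_eigenvalue_of_involution {g : M2} (hg : g * g = 1) {v : Vbar p} (hv : v ≠ 0)
    {μ : Kbar p} (hμ : extM p g *ᵥ v = μ • v) :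
    ∃ e : ZMod p, e * e = 1 ∧ algebraMap (ZMod p) (Kbar p) e = μ := by
  have h2' : extM p g * extM p g = 1 := by rw [← map_mul, hg, map_one]
  have hμ2 : (μ * μ - 1) • v = 0 := by
    have := congrArg (· *ᵥ v) h2'
    simp only [← Matrix.mulVec_mulVec, hμ, Matrix.mulVec_smul, smul_smul,
      Matrix.one_mulVec] at this
    rw [sub_smul, one_smul, this, sub_self]
  rcases mul_self_eq_one_iff.mp (sub_eq_zero.mp ((smul_eq_zero.mp hμ2).resolve_right hv)) with
    h | h
  · exact ⟨1, one_mul 1, by rw [map_one, h]⟩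
  · exact ⟨-1, by ring, by rw [map_neg, map_one, h]⟩

/-- An eigenline of an involution of determinant `-1` is defined over `𝔽_p`. -/
private theorem exists_ground_vector {g : M2} (hg : g * g = 1) (hdet : g.det = -1) (hp2 : p ≠ 2)
    {v : Vbar p} (hv : v ≠ 0) {μ : Kbar p} (hμ : extM p g *ᵥ v = μ • v) :
    ∃ (w : Fin 2 → ZMod p) (c : Kbar p), w ≠ 0 ∧
      c • v = fun i => algebraMap (ZMod p) (Kbar p) (w i) := by
  obtain ⟨e, he, hμe⟩ := exists_eigenvalue_of_involution hg hv hμ
  set C : M2 := g - e • 1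
  have hC : C ≠ 0 := fun h0 => by
    rw [sub_eq_zero.mp h0, Matrix.det_smul, Matrix.det_one, Fintype.card_fin, mul_one, pow_two,
      he] at hdet
    have : Fact (2 < p) := ⟨lt_of_le_of_ne hp.out.two_le (Ne.symm hp2)⟩
    exact ZMod.neg_one_ne_one hdet.symm
  have hCv : extM p C *ᵥ v = 0 := by
    rw [map_sub, extM_smul_one, hμe, Matrix.sub_mulVec, Matrix.smul_mulVec, Matrix.one_mulVec,
      hμ, sub_self]
  have hC0 : C.det = 0 := by
    have hd : (extM p C).det = 0 := Matrix.exists_mulVec_eq_zero_iff.mp ⟨v, hv, hCv⟩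
    rw [show (extM p C).det = algebraMap _ (Kbar p) C.det from (RingHom.map_det _ _).symm] at hd
    exact (map_eq_zero _).mp hd
  obtain ⟨w, hw, hCw⟩ := Matrix.exists_mulVec_eq_zero_iff.mpr hC0
  obtain ⟨c, hc⟩ := exists_smul_eq_of_kernel (A := extM p C)
    (w := fun i => algebraMap (ZMod p) (Kbar p) (w i))
    (fun h0 => hC (extM_injective (h0.trans (map_zero _).symm))) hv hCv (funext fun i => by
      refine (RingHom.map_mulVec (algebraMap (ZMod p) (Kbar p)) C w i).symm.trans ?_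
      rw [hCw]; simp)
  exact ⟨w, c, hw, hc⟩

/-- **A common eigenvector over `𝔽_p`.** An image without elements of order `p`, generated up to
conjugation by one of large projective order, has a common eigenline if it contains an involution
of determinant `-1`. -/
theorem exists_common_eigenvector {Γ : Type*} [Group Γ] {ρ : Γ →* GL2}
    (hno : ∀ σ, ρ σ ^ p = 1 → ρ σ = 1) {τ : Γ}
    (hord : ∀ k : ℕ, 0 < k → k < 6 → NonScalar ((ρ τ ^ k : GL2) : M2))
    (hgen : ∀ {P : Type} [Group P] (χ : Γ →* P), ρ.ker ≤ χ.ker → χ τ = 1 → ∀ σ, χ σ = 1)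
    {γ : Γ} (hγ : (ρ γ : M2) * (ρ γ : M2) = 1) (hdet : (ρ γ : M2).det = -1) (hp2 : p ≠ 2) :
    ∃ w : Fin 2 → ZMod p, w ≠ 0 ∧ ∀ σ, ∃ c : ZMod p, (ρ σ : M2) *ᵥ w = c • w := by
  obtain ⟨v, hv, hev⟩ := exists_common_line hno hord hgen
  obtain ⟨μ, hμ⟩ := hev γ
  obtain ⟨w, c, hw, hc⟩ := exists_ground_vector hγ hdet hp2 hv hμ
  refine ⟨w, hw, fun σ => ?_⟩
  obtain ⟨ν, hν⟩ := hev σ
  set ι := fun u : Fin 2 → ZMod p => (fun i => algebraMap (ZMod p) (Kbar p) (u i))
  have h1 : ι ((ρ σ : M2) *ᵥ w) = ν • ι w := by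
    refine Eq.trans (funext fun i => RingHom.map_mulVec (algebraMap (ZMod p) (Kbar p)) _ w i) ?_
    change extM p (ρ σ : M2) *ᵥ ι w = ν • ι w
    rw [← show c • v = ι w from hc, Matrix.mulVec_smul, hν, smul_comm]
  obtain ⟨i, hi⟩ : ∃ i, w i ≠ 0 := Function.ne_iff.mp hw
  refine ⟨((ρ σ : M2) *ᵥ w) i / w i, funext fun j => (algebraMap (ZMod p) (Kbar p)).injective ?_⟩
  have hi' := congrFun h1 i
  have hj' := congrFun h1 j
  simp only [ι, Pi.smul_apply, smul_eq_mul] at hi' hj' ⊢
  rw [map_mul, map_div₀, hi', hj', mul_div_assoc, div_self ((map_ne_zero _).mpr hi), mul_one]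

end Fermat.SW.Serre

end
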